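import Mathlib
import Fermat.Agent.MU.Lib.EllRed.Opp

section MergeWrap_Lib_MultRed_E0 -- from Lib/MultRed/E0.lean

set_option autoImplicit false
set_option linter.unusedSectionVars false

namespace Fermat.Agent.MultRed

open WeierstrassCurve WeierstrassCurve.Affine IsLocalRing S05H65 S05H75 Fermat.Agent.EllRed

variable {K : Type*} [Field K] [DecidableEq K] {A : ValuationSubring K}
  {E : Affine K} {Ek : Affine (ResidueField A)} [DecidableEq (ResidueField A)]

section Coords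

variable (h : IsReduction A E Ek)

include h in
/-- **Generic addition in coordinates** (no hypothesis on the reduction type). -/
theorem exists_add_of_ne {x₁ y₁ x₂ y₂ : K} (h₁ : E.Nonsingular x₁ y₁) (h₂ : E.Nonsingular x₂ y₂)
    (hx₁ : x₁ ∈ A) (hx₂ : x₂ ∈ A)
    (hne : ¬(res A x₁ = res A x₂ ∧ res A y₁ = Ek.negY (res A x₂) (res A y₂))) :
    ∃ (x₃ y₃ : K) (h₃ : E.Nonsingular x₃ y₃),
      Point.some x₁ y₁ h₁ + Point.some x₂ y₂ h₂ = Point.some x₃ y₃ h₃ ∧ x₃ ∈ A ∧ y₃ ∈ A ∧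
      res A x₃ = Ek.addX (res A x₁) (res A x₂)
        (Ek.slope (res A x₁) (res A x₂) (res A y₁) (res A y₂)) ∧
      res A y₃ = Ek.addY (res A x₁) (res A x₂) (res A y₁)
        (Ek.slope (res A x₁) (res A x₂) (res A y₁) (res A y₂)) := by
  have hy₁ : y₁ ∈ A := h.mem_y h₁.1 hx₁
  have hy₂ : y₂ ∈ A := h.mem_y h₂.1 hx₂
  have hne0 := hne
  rw [res_of_mem hx₁, res_of_mem hx₂, res_of_mem hy₁, res_of_mem hy₂] at hne
  obtain ⟨lam, hlamK, hlamk⟩ := exists_slope_lift h (x₁ := ⟨x₁, hx₁⟩) (y₁ := ⟨y₁, hy₁⟩)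
    (x₂ := ⟨x₂, hx₂⟩) (y₂ := ⟨y₂, hy₂⟩) h₁.1 h₂.1 hne
  have hxyK : ¬(x₁ = x₂ ∧ y₁ = E.negY x₂ y₂) :=
    not_opp_of_residue h (x₁ := ⟨x₁, hx₁⟩) (y₁ := ⟨y₁, hy₁⟩) (x₂ := ⟨x₂, hx₂⟩)
      (y₂ := ⟨y₂, hy₂⟩) hne
  have hX3 : E.addX x₁ x₂ (E.slope x₁ x₂ y₁ y₂)
      = ((h.intModel.addX ⟨x₁, hx₁⟩ ⟨x₂, hx₂⟩ lam : A) : K) := by
    rw [coe_addX h, hlamK]
  have hY3 : E.addY x₁ x₂ y₁ (E.slope x₁ x₂ y₁ y₂)
      = ((h.intModel.addY ⟨x₁, hx₁⟩ ⟨x₂, hx₂⟩ ⟨y₁, hy₁⟩ lam : A) : K) := by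
    rw [coe_addY h, hlamK]
  refine ⟨_, _, _, Point.add_some hxyK, ?_, ?_, ?_, ?_⟩
  · rw [hX3]; exact Subtype.property _
  · rw [hY3]; exact Subtype.property _
  · rw [hX3, res_coe, residue_addX h, hlamk, res_of_mem hx₁, res_of_mem hx₂, res_of_mem hy₁,
      res_of_mem hy₂]
  · rw [hY3, res_coe, residue_addY h, hlamk, res_of_mem hx₁, res_of_mem hx₂, res_of_mem hy₁,
      res_of_mem hy₂]

include h in
/-- **Opposite reductions** at a nonsingular point of the reduced cubic: the sum is in the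
kernel of reduction. -/
theorem inG1_add_of_opp_of_nonsingular {x₁ y₁ x₂ y₂ : K} (h₁ : E.Nonsingular x₁ y₁)
    (h₂ : E.Nonsingular x₂ y₂) (hx₁ : x₁ ∈ A) (hx₂ : x₂ ∈ A)
    (hns : Ek.Nonsingular (res A x₁) (res A y₁))
    (hopp : res A x₁ = res A x₂ ∧ res A y₁ = Ek.negY (res A x₂) (res A y₂)) :
    InG1 A.valuation (Point.some x₁ y₁ h₁ + Point.some x₂ y₂ h₂) := by
  have hy₁ : y₁ ∈ A := h.mem_y h₁.1 hx₁
  have hy₂ : y₂ ∈ A := h.mem_y h₂.1 hx₂
  by_cases hxyK : x₁ = x₂ ∧ y₁ = E.negY x₂ y₂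
  · left
    exact Point.add_of_Y_eq hxyK.1 hxyK.2
  · right
    rw [Point.add_some hxyK, px_some]
    have hnegY : E.negY x₂ y₂ ∈ A := mem_negY h hx₂ hy₂
    have hD : A.valuation (y₁ - E.negY x₂ y₂) < 1 := by
      rw [← res_eq_zero_iff (sub_mem hy₁ hnegY), res_sub hy₁ hnegY, res_negY h hx₂ hy₂, hopp.2,
        sub_self]
    have hX : A.valuation (x₁ - x₂) < 1 := by
      rw [← res_eq_zero_iff (sub_mem hx₁ hx₂), res_sub hx₁ hx₂, hopp.1, sub_self]
    have hl : 1 < A.valuation (E.slope x₁ x₂ y₁ y₂) := by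
      rcases ((nonsingular_iff' _ _).mp hns).2 with hFx | hFy
      · have hN : A.valuation (slopeNum E x₁ x₂ y₁) = 1 := by
          rw [← res_ne_zero_iff (mem_slopeNum h hx₁ hx₂ hy₁), res_slopeNum h hx₁ hx₂ hy₁,
            ← hopp.1]
          intro h0
          apply hFx
          simp only [slopeNum] at h0
          linear_combination -h0
        apply one_lt_val_of_mul A.valuation (b := y₁ - E.negY x₂ y₂) _ hD
        rw [slope_mul_sub_negY h₁.1 h₂.1 hxyK, hN]
      · have hY : A.valuation (y₁ - y₂) = 1 := by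
          rw [← res_ne_zero_iff (sub_mem hy₁ hy₂), res_sub hy₁ hy₂]
          intro h0
          apply hFy
          have e2 := hopp.2
          simp only [negY] at e2
          rw [← hopp.1] at e2
          linear_combination h0 + e2
        by_cases hx : x₁ = x₂
        · exfalso
          have hy : y₁ ≠ E.negY x₂ y₂ := fun hy => hxyK ⟨hx, hy⟩
          have hyy : y₁ = y₂ := Y_eq_of_Y_ne h₁.1 h₂.1 hx hy
          rw [hyy, sub_self, map_zero] at hY
          exact zero_ne_one hY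
        · apply one_lt_val_of_mul A.valuation (b := x₁ - x₂) _ hX
          rw [slope_mul_sub_X hx, hY]
    exact one_lt_val_addX A.valuation h.val_a₁ h.val_a₂ ((A.valuation_le_one_iff _).2 hx₁)
      ((A.valuation_le_one_iff _).2 hx₂) hl

end Coords

section E0

/-- `P` is an integral point whose reduction is a nonsingular point of the reduced cubic. -/
def NsInt (A : ValuationSubring K) (Ek : Affine (ResidueField A)) (P : E.Point) : Prop :=
  ∃ (x y : K) (hxy : E.Nonsingular x y),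
    P = .some x y hxy ∧ x ∈ A ∧ Ek.Nonsingular (res A x) (res A y)

/-- `P` has nonsingular reduction: it lies in the kernel of reduction or is an integral point
with nonsingular reduction. -/
def InE0 (A : ValuationSubring K) (Ek : Affine (ResidueField A)) (P : E.Point) : Prop :=
  InG1 A.valuation P ∨ NsInt A Ek P

lemma NsInt.isInt {P : E.Point} (hP : NsInt A Ek P) : IsInt A P := by
  obtain ⟨x, y, hxy, rfl, hx, -⟩ := hP
  exact ⟨x, y, hxy, rfl, hx⟩

lemma inE0_zero : InE0 A Ek (0 : E.Point) := Or.inl (Or.inl rfl)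

lemma inE0_of_inG1 {P : E.Point} (hP : InG1 A.valuation P) : InE0 A Ek P := Or.inl hP

variable (h : IsReduction A E Ek)

include h in
lemma nsInt_neg {P : E.Point} (hP : NsInt A Ek P) : NsInt A Ek (-P) := by
  obtain ⟨x, y, hxy, rfl, hx, hns⟩ := hP
  have hy : y ∈ A := h.mem_y hxy.1 hx
  refine ⟨x, E.negY x y, (nonsingular_neg _ _).mpr hxy, Point.neg_some hxy, hx, ?_⟩
  rw [res_negY h hx hy]
  exact (nonsingular_neg _ _).mpr hns

include h in
theorem inE0_neg {P : E.Point} (hP : InE0 A Ek P) : InE0 A Ek (-P) := by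
  rcases hP with hP | hP
  · exact Or.inl (inG1_neg A.valuation hP)
  · exact Or.inr (nsInt_neg h hP)

include h in
/-- Sum of two integral points with nonsingular reduction. -/
theorem inE0_add_of_nsInt {P Q : E.Point} (hP : NsInt A Ek P) (hQ : NsInt A Ek Q) :
    InE0 A Ek (P + Q) := by
  obtain ⟨x₁, y₁, h₁, rfl, hx₁, hns₁⟩ := hP
  obtain ⟨x₂, y₂, h₂, rfl, hx₂, hns₂⟩ := hQ
  by_cases hopp : res A x₁ = res A x₂ ∧ res A y₁ = Ek.negY (res A x₂) (res A y₂)
  · exact Or.inl (inG1_add_of_opp_of_nonsingular h h₁ h₂ hx₁ hx₂ hns₁ hopp)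
  · obtain ⟨x₃, y₃, h₃, hsum, hx₃, -, hX, hY⟩ := exists_add_of_ne h h₁ h₂ hx₁ hx₂ hopp
    refine Or.inr ⟨x₃, y₃, h₃, hsum, hx₃, ?_⟩
    rw [hX, hY]
    exact nonsingular_add hns₁ hns₂ hopp

include h in
/-- Sum of a point of the kernel of reduction and an integral point with nonsingular reduction:
the reduction does not change. -/
theorem nsInt_add_of_inG1 {P Q : E.Point} (hP : InG1 A.valuation P) (hQ : NsInt A Ek Q) :
    NsInt A Ek (P + Q) := by
  have hR : IsInt A (P + Q) := by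
    by_contra hR
    rw [not_isInt_iff_inG1] at hR
    have hQ' : InG1 A.valuation (P + Q - P) :=
      inG1_sub A.valuation h.val_b₂ h.val_b₄ h.val_b₆ h.val_b₈ hR hP
    rw [add_sub_cancel_left] at hQ'
    exact (not_isInt_iff_inG1 Q).mpr hQ' hQ.isInt
  obtain ⟨x₃, y₃, h₃, hR3, hx₃⟩ := hR
  obtain ⟨x₂, y₂, h₂, rfl, hx₂, hns₂⟩ := hQ
  have hy₂ : y₂ ∈ A := h.mem_y h₂.1 hx₂
  have hy₃ : y₃ ∈ A := h.mem_y h₃.1 hx₃
  have hsame : res A x₃ = res A x₂ ∧ res A y₃ = res A y₂ := by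
    by_contra hne
    have hne' : ¬(res A x₃ = res A x₂ ∧
        res A y₃ = Ek.negY (res A x₂) (res A (E.negY x₂ y₂))) := by
      rw [res_negY h hx₂ hy₂, negY_negY]
      exact hne
    obtain ⟨x₄, y₄, h₄, hsum4, hx₄, -⟩ :=
      exists_add_of_ne h h₃ ((nonsingular_neg _ _).mpr h₂) hx₃ hx₂ hne'
    have hsum : Point.some x₃ y₃ h₃ + Point.some x₂ (E.negY x₂ y₂) ((nonsingular_neg _ _).mpr h₂)
        = P := by
      have hneg : Point.some x₂ (E.negY x₂ y₂) ((nonsingular_neg _ _).mpr h₂)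
          = -Point.some x₂ y₂ h₂ := (Point.neg_some h₂).symm
      rw [hneg, ← hR3, add_neg_cancel_right]
    rw [hsum] at hsum4
    exact (not_isInt_iff_inG1 P).mpr hP ⟨x₄, y₄, h₄, hsum4, hx₄⟩
  refine ⟨x₃, y₃, h₃, hR3, hx₃, ?_⟩
  rw [hsame.1, hsame.2]
  exact hns₂

include h in
/-- **`E0` is closed under addition.** -/
theorem inE0_add {P Q : E.Point} (hP : InE0 A Ek P) (hQ : InE0 A Ek Q) :
    InE0 A Ek (P + Q) := by
  rcases hP with hP | hP
  · rcases hQ with hQ | hQ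
    · exact Or.inl (inG1_add A.valuation h.val_b₂ h.val_b₄ h.val_b₆ h.val_b₈ hP hQ)
    · exact Or.inr (nsInt_add_of_inG1 h hP hQ)
  · rcases hQ with hQ | hQ
    · rw [add_comm]
      exact Or.inr (nsInt_add_of_inG1 h hQ hP)
    · exact inE0_add_of_nsInt h hP hQ

include h in
/-- **`E0` is closed under subtraction.** -/
theorem inE0_sub {P Q : E.Point} (hP : InE0 A Ek P) (hQ : InE0 A Ek Q) :
    InE0 A Ek (P - Q) := by
  rw [sub_eq_add_neg]
  exact inE0_add h hP (inE0_neg h hQ)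

/-- The subgroup of points with nonsingular reduction. -/
def E0 : AddSubgroup E.Point where
  carrier := {P | InE0 A Ek P}
  zero_mem' := inE0_zero
  add_mem' := fun hP hQ => inE0_add h hP hQ
  neg_mem' := fun hP => inE0_neg h hP

@[simp] lemma mem_E0 {P : E.Point} : P ∈ E0 h ↔ InE0 A Ek P := Iff.rfl

end E0

end Fermat.Agent.MultRed
end MergeWrap_Lib_MultRed_E0

section MergeWrap_Lib_MultRed_E0Val -- from Lib/MultRed/E0Val.lean

set_option autoImplicit false
set_option linter.unusedSectionVars false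

namespace Fermat.Agent.MultRed

open WeierstrassCurve WeierstrassCurve.Affine IsLocalRing S05H65 S05H75 Fermat.Agent.EllRed

variable {K : Type*} [Field K] [DecidableEq K] {A : ValuationSubring K} {E : Affine K}

/-- The coefficients of `E` are integral. -/
structure IntCoeff (A : ValuationSubring K) (E : Affine K) : Prop where
  mem_a₁ : E.a₁ ∈ A
  mem_a₂ : E.a₂ ∈ A
  mem_a₃ : E.a₃ ∈ A
  mem_a₄ : E.a₄ ∈ A
  mem_a₆ : E.a₆ ∈ A

/-- The reduced cubic (possibly singular). -/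
noncomputable def redCurve (A : ValuationSubring K) (E : Affine K) : Affine (ResidueField A) :=
  ⟨res A E.a₁, res A E.a₂, res A E.a₃, res A E.a₄, res A E.a₆⟩

lemma isReduction_redCurve (hint : IntCoeff A E) : IsReduction A E (redCurve A E) where
  mem_a₁ := hint.mem_a₁
  mem_a₂ := hint.mem_a₂
  mem_a₃ := hint.mem_a₃
  mem_a₄ := hint.mem_a₄
  mem_a₆ := hint.mem_a₆
  res_a₁ := rfl
  res_a₂ := rfl
  res_a₃ := rfl
  res_a₄ := rfl
  res_a₆ := rfl

/-- Valuation form of "the reduction of `(x, y)` is a nonsingular point of the reduced cubic":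
not both partial derivatives are in the maximal ideal. -/
def NsVal (A : ValuationSubring K) (E : Affine K) (x y : K) : Prop :=
  ¬(A.valuation (E.a₁ * y - (3 * x ^ 2 + 2 * E.a₂ * x + E.a₄)) < 1 ∧
    A.valuation (2 * y + E.a₁ * x + E.a₃) < 1)

lemma res_Fx (hint : IntCoeff A E) {x y : K} (hx : x ∈ A) (hy : y ∈ A) :
    E.a₁ * y - (3 * x ^ 2 + 2 * E.a₂ * x + E.a₄) ∈ A ∧
    res A (E.a₁ * y - (3 * x ^ 2 + 2 * E.a₂ * x + E.a₄))
      = (redCurve A E).a₁ * res A y
        - (3 * res A x ^ 2 + 2 * (redCurve A E).a₂ * res A x + (redCurve A E).a₄) := by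
  have e : E.a₁ * y - (3 * x ^ 2 + 2 * E.a₂ * x + E.a₄)
      = (((⟨E.a₁, hint.mem_a₁⟩ : A) * ⟨y, hy⟩
          - (3 * (⟨x, hx⟩ : A) ^ 2 + 2 * ⟨E.a₂, hint.mem_a₂⟩ * ⟨x, hx⟩ + ⟨E.a₄, hint.mem_a₄⟩) : A)
          : K) := by
    push_cast
    rfl
  constructor
  · rw [e]
    exact Subtype.property _
  · rw [e, res_coe]
    simp only [map_sub, map_add, map_mul, map_pow, map_ofNat]
    rw [res_of_mem hx, res_of_mem hy]
    simp only [redCurve, res_of_mem hint.mem_a₁, res_of_mem hint.mem_a₂, res_of_mem hint.mem_a₄]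

lemma res_Fy (hint : IntCoeff A E) {x y : K} (hx : x ∈ A) (hy : y ∈ A) :
    2 * y + E.a₁ * x + E.a₃ ∈ A ∧
    res A (2 * y + E.a₁ * x + E.a₃)
      = 2 * res A y + (redCurve A E).a₁ * res A x + (redCurve A E).a₃ := by
  have e : 2 * y + E.a₁ * x + E.a₃
      = ((2 * (⟨y, hy⟩ : A) + ⟨E.a₁, hint.mem_a₁⟩ * ⟨x, hx⟩ + ⟨E.a₃, hint.mem_a₃⟩ : A) : K) := by
    push_cast
    rfl
  constructor
  · rw [e]
    exact Subtype.property _
  · rw [e, res_coe]
    simp only [map_add, map_mul, map_ofNat]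
    rw [res_of_mem hx, res_of_mem hy]
    simp only [redCurve, res_of_mem hint.mem_a₁, res_of_mem hint.mem_a₃]

/-- The reduction of an integral point is nonsingular iff not both partial derivatives are in
the maximal ideal. -/
theorem nonsingular_res_iff (hint : IntCoeff A E) {x y : K} (hxy : E.Equation x y) (hx : x ∈ A) :
    (redCurve A E).Nonsingular (res A x) (res A y) ↔ NsVal A E x y := by
  have h := isReduction_redCurve hint
  have hy : y ∈ A := h.mem_y hxy hx
  have heq := h.equation_res hxy hx hy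
  obtain ⟨hFxm, hFx⟩ := res_Fx hint hx hy
  obtain ⟨hFym, hFy⟩ := res_Fy hint hx hy
  rw [nonsingular_iff', NsVal, ← res_eq_zero_iff hFxm, ← res_eq_zero_iff hFym, hFx, hFy]
  constructor
  · rintro ⟨-, h1 | h1⟩ ⟨h2, h3⟩
    · exact h1 h2
    · exact h1 h3
  · intro h1
    refine ⟨heq, ?_⟩
    by_contra h2
    push Not at h2
    exact h1 h2

/-- Valuation form of `InE0`. -/
def InE0v (A : ValuationSubring K) (P : E.Point) : Prop :=
  InG1 A.valuation P ∨
    ∃ (x y : K) (hxy : E.Nonsingular x y), P = .some x y hxy ∧ x ∈ A ∧ NsVal A E x y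

variable [DecidableEq (ResidueField A)]

lemma inE0v_iff (hint : IntCoeff A E) (P : E.Point) :
    InE0v A P ↔ InE0 A (redCurve A E) P := by
  constructor
  · rintro (hP | ⟨x, y, hxy, rfl, hx, hns⟩)
    · exact Or.inl hP
    · exact Or.inr ⟨x, y, hxy, rfl, hx, (nonsingular_res_iff hint hxy.1 hx).mpr hns⟩
  · rintro (hP | ⟨x, y, hxy, rfl, hx, hns⟩)
    · exact Or.inl hP
    · exact Or.inr ⟨x, y, hxy, rfl, hx, (nonsingular_res_iff hint hxy.1 hx).mp hns⟩

omit [DecidableEq (ResidueField A)] in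
lemma inE0v_zero : InE0v A (0 : E.Point) := Or.inl (Or.inl rfl)

omit [DecidableEq (ResidueField A)] in
/-- **`E0` is closed under addition** (valuation form; integral coefficients, any reduction). -/
theorem inE0v_add (hint : IntCoeff A E) {P Q : E.Point} (hP : InE0v A P) (hQ : InE0v A Q) :
    InE0v A (P + Q) := by
  classical
  rw [inE0v_iff hint] at hP hQ ⊢
  exact inE0_add (isReduction_redCurve hint) hP hQ

omit [DecidableEq (ResidueField A)] in
theorem inE0v_neg (hint : IntCoeff A E) {P : E.Point} (hP : InE0v A P) : InE0v A (-P) := by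
  classical
  rw [inE0v_iff hint] at hP ⊢
  exact inE0_neg (isReduction_redCurve hint) hP

omit [DecidableEq (ResidueField A)] in
/-- **`E0` is closed under subtraction** (valuation form). -/
theorem inE0v_sub (hint : IntCoeff A E) {P Q : E.Point} (hP : InE0v A P) (hQ : InE0v A Q) :
    InE0v A (P - Q) := by
  classical
  rw [inE0v_iff hint] at hP hQ ⊢
  exact inE0_sub (isReduction_redCurve hint) hP hQ

omit [DecidableEq (ResidueField A)] in
/-- `n`-torsion points of `E0` with the same reduction are equal, for `n` a unit of `A`: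
the kernel of reduction has no `n`-torsion. -/
theorem eq_of_sub_inG1_of_torsion (hint : IntCoeff A E) {n : ℕ} (hn : A.valuation (n : K) = 1)
    {P Q : E.Point} (hP : n • P = 0) (hQ : n • Q = 0) (hPQ : InG1 A.valuation (P - Q)) :
    P = Q := by
  classical
  have h := isReduction_redCurve hint
  have h0 : n • (P - Q) = 0 := by rw [smul_sub, hP, hQ, sub_zero]
  have := inG1_torsion_free A.valuation h.val_b₂ h.val_b₄ h.val_b₆ h.val_b₈ hn hPQ h0
  exact sub_eq_zero.mp this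

end Fermat.Agent.MultRed
end MergeWrap_Lib_MultRed_E0Val
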