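import Mathlib
import Fermat.Agent.MU.Lib.MultRed.Unipotent
import Fermat.Agent.MU.Lib.MultRed.E0Val
import Fermat.Agent.MU.Lib.MultRed.NormalQbar
import Fermat.Agent.S13.TwoDecomp
import Fermat.Agent.S05.H5.Inertia
import Fermat.Agent.MU.Lib.EllRed.Qbar

section MergeWrap_Lib_MultRed_Main -- from Lib/MultRed/Main.lean

/-!
# MultRed / Main: inertia at a multiplicative prime is unipotent on odd torsion (owner: helper4)

`W / ℤ`, `q ∣ Δ`, `q ∤ c₄` (multiplicative reduction at `q`, any `q` including `2`), `A | q` a valuation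
subring of `Q̄`, `σ` in the inertia group of `A`, `n` odd and prime to `q`, `n • P = 0`:
`σ (σ P) - 2 σ P + P = 0`.
-/

set_option autoImplicit false

open WeierstrassCurve WeierstrassCurve.Affine

namespace Fermat.Agent.MultRed

open S05H5 S05H65 S05H75

section Bridge

variable {K : Type*} [Field K] [DecidableEq K] {A : ValuationSubring K} {E : Affine K}

theorem not_isSingPt_iff_inE0v (P : E.Point) : ¬ IsSingPt A.valuation P ↔ InE0v A P := by
  rcases P with _ | ⟨x, y, h⟩
  · constructor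
    · intro _; exact inE0v_zero
    · intro _ hs; exact hs
  · constructor
    · intro hns
      by_cases hx : A.valuation x ≤ 1
      · refine Or.inr ⟨x, y, h, rfl, (A.valuation_le_one_iff x).mp hx, ?_⟩
        rintro ⟨h1, h2⟩
        exact hns ⟨hx, h1, h2⟩
      · exact Or.inl (Or.inr (not_le.mp hx))
    · rintro (hG | ⟨x', y', h', heq, hx', hns⟩) ⟨hx, h1, h2⟩
      · rcases hG with h0 | hlt
        · exact Point.some_ne_zero h h0
        · exact absurd hx (not_le.mpr hlt)
      · simp only [Point.some.injEq] at heq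
        obtain ⟨rfl, rfl⟩ := heq
        exact hns ⟨h1, h2⟩

end Bridge

theorem inertia_unipotent (W : WeierstrassCurve ℤ) {q : ℕ} [Fact q.Prime] (hΔ : (q : ℤ) ∣ W.Δ)
    (hc₄ : ¬ (q : ℤ) ∣ W.c₄) [DecidableEq (AlgebraicClosure ℚ)]
    (A : ValuationSubring (AlgebraicClosure ℚ)) (hA : A.LiesOverPrime q)
    (σ : AlgebraicClosure ℚ ≃ₐ[ℚ] AlgebraicClosure ℚ) (hσ : σ ∈ A.inertiaSubgroupIn ℚ)
    {n : ℕ} (hn : Odd n) (hqn : ¬ q ∣ n)
    (P : ((W.map (Int.castRingHom ℚ))⁄(AlgebraicClosure ℚ)).Point) (hP : n • P = 0) :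
    σ • (σ • P) - 2 • (σ • P) + P = 0 := by
  have hq : q.Prime := Fact.out
  obtain ⟨r, t, α, β, hr, ht, nf, hfix⟩ := exists_nodalNF W hΔ hc₄ A hA
  obtain ⟨hσr, hσt, hσα, hσβ⟩ := hfix σ hσ
  have hint : IntCoeff A ((W.map (Int.castRingHom ℚ))⁄(AlgebraicClosure ℚ)) :=
    { mem_a₁ := by
        show algebraMap ℚ (AlgebraicClosure ℚ) ((Int.castRingHom ℚ) W.a₁) ∈ A
        rw [Fermat.Agent.EllRed.algebraMap_intCast_rat]; exact intCast_mem A _
      mem_a₂ := by
        show algebraMap ℚ (AlgebraicClosure ℚ) ((Int.castRingHom ℚ) W.a₂) ∈ A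
        rw [Fermat.Agent.EllRed.algebraMap_intCast_rat]; exact intCast_mem A _
      mem_a₃ := by
        show algebraMap ℚ (AlgebraicClosure ℚ) ((Int.castRingHom ℚ) W.a₃) ∈ A
        rw [Fermat.Agent.EllRed.algebraMap_intCast_rat]; exact intCast_mem A _
      mem_a₄ := by
        show algebraMap ℚ (AlgebraicClosure ℚ) ((Int.castRingHom ℚ) W.a₄) ∈ A
        rw [Fermat.Agent.EllRed.algebraMap_intCast_rat]; exact intCast_mem A _
      mem_a₆ := by
        show algebraMap ℚ (AlgebraicClosure ℚ) ((Int.castRingHom ℚ) W.a₆) ∈ A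
        rw [Fermat.Agent.EllRed.algebraMap_intCast_rat]; exact intCast_mem A _ }
  have hσd : σ ∈ A.decompositionSubgroup ℚ := inertiaIn_mem_decomp A σ hσ
  have : Algebra.IsAlgebraic ℚ (AlgebraicClosure ℚ) := AlgebraicClosure.isAlgebraic ℚ
  have hσv : ∀ a : AlgebraicClosure ℚ, A.valuation (σ.toAlgHom a) = A.valuation a :=
    fun a => Fermat.Agent.S13Two.decomp_val_eq A σ hσd a
  have hσ1 : ∀ a : AlgebraicClosure ℚ, A.valuation a ≤ 1 →
      A.valuation (σ.toAlgHom a - a) < 1 := by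
    intro a ha
    rw [A.valuation_le_one_iff] at ha
    exact A.mem_nonunits_iff.mp (inertiaIn_sub_mem_nonunits A σ hσ ha)
  have hn1 : A.valuation ((n : ℕ) : AlgebraicClosure ℚ) = 1 :=
    Fermat.Agent.EllRed.valuation_natCast_eq_one hq hA hqn
  have hE0 : ∀ P Q : ((W.map (Int.castRingHom ℚ))⁄(AlgebraicClosure ℚ)).Point,
      ¬ IsSingPt A.valuation P → ¬ IsSingPt A.valuation Q → ¬ IsSingPt A.valuation (P + Q) := by
    intro P Q hP hQ
    rw [not_isSingPt_iff_inE0v] at hP hQ ⊢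
    exact inE0v_add hint hP hQ
  have key := map_map_sub_eq (S := ℚ) A.valuation (W.map (Int.castRingHom ℚ)).toAffine
    ((A.valuation_le_one_iff _).mpr hint.mem_a₁) ((A.valuation_le_one_iff _).mpr hint.mem_a₂)
    ((A.valuation_le_one_iff _).mpr hint.mem_a₃) ((A.valuation_le_one_iff _).mpr hint.mem_a₄)
    ((A.valuation_le_one_iff _).mpr hint.mem_a₆) hr ht nf σ.toAlgHom hσv hσ1 hσr hσt hσα hσβ
    hE0 hn hn1 P hP
  have e1 : σ • P = Point.map σ.toAlgHom P := rfl
  have e2 : σ • (σ • P) = Point.map σ.toAlgHom (Point.map σ.toAlgHom P) := rfl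
  rw [map_sub] at key
  rw [e2, e1]
  have : Point.map σ.toAlgHom (Point.map σ.toAlgHom P) - 2 • Point.map σ.toAlgHom P + P
      = (Point.map σ.toAlgHom (Point.map σ.toAlgHom P) - Point.map σ.toAlgHom P)
        - (Point.map σ.toAlgHom P - P) := by
    abel
  rw [this, key, sub_self]

end Fermat.Agent.MultRed
end MergeWrap_Lib_MultRed_Main
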