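import Mathlib
import Fermat.Agent.MU.Lib.MultRed.E0Val
import Fermat.Agent.Lib.MultRed.Char
import Fermat.Agent.Lib.MultRed.Core

section MergeWrap_Lib_MultRed_Red0 -- from Lib/MultRed/Red0.lean

set_option autoImplicit false
set_option linter.unusedSectionVars false

namespace Fermat.Agent.MultRed

open WeierstrassCurve WeierstrassCurve.Affine IsLocalRing S05H65 S05H75 Fermat.Agent.EllRed

variable {K : Type*} [Field K] [DecidableEq K] {A : ValuationSubring K}
  {E : Affine K} {Ek : Affine (ResidueField A)} [DecidableEq (ResidueField A)]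

/-- The reduction of a point with nonsingular reduction (`0` on the kernel of reduction and,
as a junk value, on the points with singular reduction). -/
noncomputable def red0 (A : ValuationSubring K) (Ek : Affine (ResidueField A)) :
    E.Point → Ek.Point
  | .zero => 0
  | .some x y _ =>
      open Classical in
      if h : x ∈ A ∧ Ek.Nonsingular (res A x) (res A y) then .some (res A x) (res A y) h.2
      else 0

@[simp] lemma red0_zero : red0 A Ek (0 : E.Point) = 0 := rfl

lemma red0_some {x y : K} (hxy : E.Nonsingular x y) (hx : x ∈ A)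
    (hns : Ek.Nonsingular (res A x) (res A y)) :
    red0 A Ek (Point.some x y hxy) = .some (res A x) (res A y) hns := by
  simp only [red0, dif_pos (And.intro hx hns)]

lemma red0_of_inG1 {P : E.Point} (hP : InG1 A.valuation P) : red0 A Ek P = 0 := by
  rcases P with _ | ⟨x, y, hxy⟩
  · rfl
  · rcases hP with h0 | hlt
    · exact absurd h0 (Point.some_ne_zero hxy)
    · have hx : x ∉ A := by
        intro hx
        rw [← A.valuation_le_one_iff] at hx
        rw [px_some] at hlt
        exact absurd hx (not_le.mpr hlt)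
      simp only [red0]
      rw [dif_neg (fun h => hx h.1)]

lemma red0_ne_zero_of_nsInt {P : E.Point} (hP : NsInt A Ek P) : red0 A Ek P ≠ 0 := by
  obtain ⟨x, y, hxy, rfl, hx, hns⟩ := hP
  rw [red0_some hxy hx hns]
  exact Point.some_ne_zero hns

/-- on `E0` the kernel of `red0` is the kernel of reduction -/
lemma red0_eq_zero_iff {P : E.Point} (hP : InE0 A Ek P) :
    red0 A Ek P = 0 ↔ InG1 A.valuation P := by
  constructor
  · intro h0
    rcases hP with hP | hP
    · exact hP
    · exact absurd h0 (red0_ne_zero_of_nsInt hP)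
  · exact red0_of_inG1

variable (h : IsReduction A E Ek)

include h in
/-- Sum of a point of the kernel of reduction and an integral point with nonsingular reduction:
the reduction does not change (coordinate form). -/
theorem exists_add_of_inG1 {P : E.Point} (hP : InG1 A.valuation P) {x₂ y₂ : K}
    (h₂ : E.Nonsingular x₂ y₂) (hx₂ : x₂ ∈ A) (hns₂ : Ek.Nonsingular (res A x₂) (res A y₂)) :
    ∃ (x₃ y₃ : K) (h₃ : E.Nonsingular x₃ y₃), P + Point.some x₂ y₂ h₂ = Point.some x₃ y₃ h₃ ∧
      x₃ ∈ A ∧ res A x₃ = res A x₂ ∧ res A y₃ = res A y₂ := by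
  have hQ : NsInt A Ek (Point.some x₂ y₂ h₂) := ⟨x₂, y₂, h₂, rfl, hx₂, hns₂⟩
  have hR : IsInt A (P + Point.some x₂ y₂ h₂) := by
    by_contra hR
    rw [not_isInt_iff_inG1] at hR
    have hQ' : InG1 A.valuation (P + Point.some x₂ y₂ h₂ - P) :=
      inG1_sub A.valuation h.val_b₂ h.val_b₄ h.val_b₆ h.val_b₈ hR hP
    rw [add_sub_cancel_left] at hQ'
    exact (not_isInt_iff_inG1 _).mpr hQ' hQ.isInt
  obtain ⟨x₃, y₃, h₃, hR3, hx₃⟩ := hR
  have hy₂ : y₂ ∈ A := h.mem_y h₂.1 hx₂
  have hy₃ : y₃ ∈ A := h.mem_y h₃.1 hx₃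
  have hsame : res A x₃ = res A x₂ ∧ res A y₃ = res A y₂ := by
    by_contra hne
    have hne' : ¬(res A x₃ = res A x₂ ∧
        res A y₃ = Ek.negY (res A x₂) (res A (E.negY x₂ y₂))) := by
      rw [res_negY h hx₂ hy₂, negY_negY]
      exact hne
    obtain ⟨x₄, y₄, h₄, hsum4, hx₄, -⟩ :=
      exists_add_of_ne h h₃ ((nonsingular_neg _ _).mpr h₂) hx₃ hx₂ hne'
    have hsum : Point.some x₃ y₃ h₃ + Point.some x₂ (E.negY x₂ y₂) ((nonsingular_neg _ _).mpr h₂)
        = P := by
      have hneg : Point.some x₂ (E.negY x₂ y₂) ((nonsingular_neg _ _).mpr h₂)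
          = -Point.some x₂ y₂ h₂ := (Point.neg_some h₂).symm
      rw [hneg, ← hR3, add_neg_cancel_right]
    rw [hsum] at hsum4
    exact (not_isInt_iff_inG1 P).mpr hP ⟨x₄, y₄, h₄, hsum4, hx₄⟩
  exact ⟨x₃, y₃, h₃, hR3, hx₃, hsame.1, hsame.2⟩

include h in
lemma red0_add_of_inG1 {P Q : E.Point} (hP : InG1 A.valuation P) (hQ : NsInt A Ek Q) :
    red0 A Ek (P + Q) = red0 A Ek P + red0 A Ek Q := by
  obtain ⟨x₂, y₂, h₂, rfl, hx₂, hns₂⟩ := hQ
  obtain ⟨x₃, y₃, h₃, hsum, hx₃, hX, hY⟩ := exists_add_of_inG1 h hP h₂ hx₂ hns₂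
  have hns₃ : Ek.Nonsingular (res A x₃) (res A y₃) := by rw [hX, hY]; exact hns₂
  rw [hsum, red0_some h₃ hx₃ hns₃, red0_of_inG1 hP, zero_add, red0_some h₂ hx₂ hns₂]
  simp only [Point.some.injEq]
  exact ⟨hX, hY⟩

include h in
lemma red0_add_of_nsInt {P Q : E.Point} (hP : NsInt A Ek P) (hQ : NsInt A Ek Q) :
    red0 A Ek (P + Q) = red0 A Ek P + red0 A Ek Q := by
  obtain ⟨x₁, y₁, h₁, rfl, hx₁, hns₁⟩ := hP
  obtain ⟨x₂, y₂, h₂, rfl, hx₂, hns₂⟩ := hQ
  rw [red0_some h₁ hx₁ hns₁, red0_some h₂ hx₂ hns₂]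
  by_cases hopp : res A x₁ = res A x₂ ∧ res A y₁ = Ek.negY (res A x₂) (res A y₂)
  · rw [red0_of_inG1 (inG1_add_of_opp_of_nonsingular h h₁ h₂ hx₁ hx₂ hns₁ hopp),
      Point.add_of_Y_eq hopp.1 hopp.2]
  · obtain ⟨x₃, y₃, h₃, hsum, hx₃, -, hX, hY⟩ := exists_add_of_ne h h₁ h₂ hx₁ hx₂ hopp
    have hns₃ : Ek.Nonsingular (res A x₃) (res A y₃) := by
      rw [hX, hY]; exact nonsingular_add hns₁ hns₂ hopp
    rw [hsum, red0_some h₃ hx₃ hns₃, Point.add_some hopp]
    simp only [Point.some.injEq]
    exact ⟨hX, hY⟩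

include h in
/-- **`red0` is additive on `E0`.** -/
theorem red0_add {P Q : E.Point} (hP : InE0 A Ek P) (hQ : InE0 A Ek Q) :
    red0 A Ek (P + Q) = red0 A Ek P + red0 A Ek Q := by
  rcases hP with hP | hP
  · rcases hQ with hQ | hQ
    · rw [red0_of_inG1 hP, red0_of_inG1 hQ,
        red0_of_inG1 (inG1_add A.valuation h.val_b₂ h.val_b₄ h.val_b₆ h.val_b₈ hP hQ), add_zero]
    · exact red0_add_of_inG1 h hP hQ
  · rcases hQ with hQ | hQ
    · rw [add_comm P Q, add_comm (red0 A Ek P)]
      exact red0_add_of_inG1 h hQ hP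
    · exact red0_add_of_nsInt h hP hQ

include h in
lemma inE0_nsmul {P : E.Point} (hP : InE0 A Ek P) (n : ℕ) : InE0 A Ek (n • P) := by
  induction n with
  | zero => rw [zero_smul]; exact inE0_zero
  | succ n ih => rw [succ_nsmul]; exact inE0_add h ih hP

include h in
theorem red0_nsmul {P : E.Point} (hP : InE0 A Ek P) (n : ℕ) :
    red0 A Ek (n • P) = n • red0 A Ek P := by
  induction n with
  | zero => simp
  | succ n ih => rw [succ_nsmul, succ_nsmul, red0_add h (inE0_nsmul h hP n) hP, ih]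

include h in
/-- If the nonsingular locus of the reduced cubic has no `n`-torsion, every `n`-torsion point of
`E0` lies in the kernel of reduction. -/
theorem inG1_of_nsmul_eq_zero {n : ℕ} (hk : ∀ Q : Ek.Point, n • Q = 0 → Q = 0)
    {P : E.Point} (hP : InE0 A Ek P) (hn : n • P = 0) : InG1 A.valuation P := by
  rw [← red0_eq_zero_iff hP]
  apply hk
  rw [← red0_nsmul h hP, hn, red0_zero]

end Fermat.Agent.MultRed
end MergeWrap_Lib_MultRed_Red0

section MergeWrap_Lib_MultRed_E0Tors -- from Lib/MultRed/E0Tors.lean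

set_option autoImplicit false
set_option linter.unusedSectionVars false

namespace Fermat.Agent.MultRed

open WeierstrassCurve WeierstrassCurve.Affine IsLocalRing S05H5 S05H65 S05H75 Fermat.Agent.EllRed

variable {K : Type*} [Field K] [DecidableEq K] {A : ValuationSubring K} {E : Affine K} {α β : K}

/-- the coefficients of a nodal normal form are integral -/
lemma NodalNF.intCoeff (nf : NodalNF A.valuation E α β) : IntCoeff A E where
  mem_a₁ := (A.valuation_le_one_iff _).mp nf.va₁
  mem_a₂ := (A.valuation_le_one_iff _).mp nf.va₂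
  mem_a₃ := by rw [nf.a₃]; exact A.zero_mem
  mem_a₄ := by rw [nf.a₄]; exact A.zero_mem
  mem_a₆ := (A.valuation_le_one_iff _).mp nf.va₆.le

/-- the reduction of a nodal normal form is a nodal cubic -/
lemma NodalNF.nodeCubic (nf : NodalNF A.valuation E α β) :
    NodeCubic (redCurve A E) (res A α) (res A β) where
  a₃ := by
    show res A E.a₃ = 0
    rw [nf.a₃, res_zero]
  a₄ := by
    show res A E.a₄ = 0
    rw [nf.a₄, res_zero]
  a₆ := by
    show res A E.a₆ = 0
    rw [res_eq_zero_iff ((A.valuation_le_one_iff _).mp nf.va₆.le)]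
    exact nf.va₆
  hsum := by
    show res A α + res A β = -res A E.a₁
    have hα := (A.valuation_le_one_iff _).mp nf.vα
    have hβ := (A.valuation_le_one_iff _).mp nf.vβ
    have ha₁ := (A.valuation_le_one_iff _).mp nf.va₁
    rw [← res_add hα hβ, ← res_neg ha₁, nf.hsum]
  hprod := by
    show res A α * res A β = -res A E.a₂
    have hα := (A.valuation_le_one_iff _).mp nf.vα
    have hβ := (A.valuation_le_one_iff _).mp nf.vβ
    have ha₂ := (A.valuation_le_one_iff _).mp nf.va₂
    rw [← res_mul hα hβ, ← res_neg ha₂, nf.hprod]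
  hne := by
    have hα := (A.valuation_le_one_iff _).mp nf.vα
    have hβ := (A.valuation_le_one_iff _).mp nf.vβ
    intro h
    rw [res_eq_iff hα hβ, nf.vαβ] at h
    exact lt_irrefl _ h

/-- a point which does not reduce to the node has nonsingular reduction -/
lemma NodalNF.inE0_of_not_isNodePt [DecidableEq (ResidueField A)]
    (nf : NodalNF A.valuation E α β) {P : E.Point}
    (hP : ¬ IsNodePt A.valuation P) : InE0 A (redCurve A E) P := by
  rcases P with _ | ⟨x, y, hxy⟩
  · exact inE0_zero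
  · by_cases hx : A.valuation x ≤ 1
    · have hxA : x ∈ A := (A.valuation_le_one_iff _).mp hx
      have hint := nf.intCoeff
      have hyA : y ∈ A := (isReduction_redCurve hint).mem_y hxy.1 hxA
      have hy : A.valuation y ≤ 1 := (A.valuation_le_one_iff _).mpr hyA
      refine Or.inr ⟨x, y, hxy, rfl, hxA, ?_⟩
      rw [nonsingular_res_iff hint hxy.1 hxA]
      rintro ⟨hFx, hFy⟩
      exact hP (isNode_of_singular nf hxy.1 hx hy hFx hFy)
    · exact Or.inl (Or.inr (by rw [px_some]; exact not_le.mp hx))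

/-- the residue field has characteristic `p` -/
lemma charP_resField_of_val {p : ℕ} (hp : p.Prime) (hvp : A.valuation (p : K) < 1) :
    CharP (ResidueField A) p := by
  rw [CharP.charP_iff_prime_eq_zero hp, ← res_natCast (A := A), res_eq_zero_iff (natCast_mem A p)]
  exact hvp

/-- **`E0[p^k] ⊆ E1`** in nodal normal form at a place of residue characteristic `p`. -/
theorem NodalNF.inG1_of_pow_smul (nf : NodalNF A.valuation E α β) {p : ℕ} [Fact p.Prime]
    (hvp : A.valuation (p : K) < 1) (k : ℕ) {P : E.Point} (hns : ¬ IsNodePt A.valuation P)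
    (hP : (p ^ k) • P = 0) : InG1 A.valuation P := by
  classical
  have : CharP (ResidueField A) p := charP_resField_of_val Fact.out hvp
  have h := isReduction_redCurve nf.intCoeff
  exact inG1_of_nsmul_eq_zero h (fun Q hQ => nf.nodeCubic.eq_zero_of_pow_smul p k hQ)
    (nf.inE0_of_not_isNodePt hns) hP

end Fermat.Agent.MultRed
end MergeWrap_Lib_MultRed_E0Tors
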